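import Mathlib

/-!
# S29 (R-core, C3): finite level of Galois orbits, abstract part

`G_ℚ = Gal(ℚ̄/ℚ)` acts on a set/module `M` through `act : G_ℚ → M → M`.

* `HasLevel act L x` : every `σ` fixing the intermediate field `L` pointwise fixes `x`;
  `HasFiniteLevel act x` : this holds for some `L` finite over `ℚ`.
* closure properties (`zero`, `add`, `neg`, `sum`, `smul`, equivariant maps, pure tensors, all of
  `k ⊗[R] M`).
* `exists_normal_level` : the level can be taken finite and stable under all `ℚ`-embeddings.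
* for a representation `ρ : G_ℚ →* Module.End k V` and a vector `v` of finite level:
  `orbitSpan ρ v` (the `k`-span of the orbit) is `ρ`-stable, finite-dimensional, and `ρ` is
  trivial on it on `Gal(ℚ̄/L)` for a finite normal `L`; `subRep` is the restricted representation.
-/

set_option autoImplicit false

noncomputable section

open scoped TensorProduct

namespace Fermat.Agent.S29.FiniteLevel

local notation "Kb" => AlgebraicClosure ℚ
local notation "GalQ" => (AlgebraicClosure ℚ ≃ₐ[ℚ] AlgebraicClosure ℚ)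

/-! ## Levels -/

section Core

variable {M : Type*}

/-- `x` is fixed by every `σ` that fixes `L` pointwise. -/
def HasLevel (act : GalQ → M → M) (L : IntermediateField ℚ Kb) (x : M) : Prop :=
  ∀ σ : GalQ, (∀ y ∈ L, σ y = y) → act σ x = x

/-- `x` is fixed by `Gal(ℚ̄/L)` for some `L` finite over `ℚ`. -/
def HasFiniteLevel (act : GalQ → M → M) (x : M) : Prop :=
  ∃ L : IntermediateField ℚ Kb, FiniteDimensional ℚ L ∧ HasLevel act L x

theorem HasLevel.mono {act : GalQ → M → M} {L L' : IntermediateField ℚ Kb} (h : L ≤ L')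
    {x : M} (hx : HasLevel act L x) : HasLevel act L' x :=
  fun σ hσ => hx σ (fun y hy => hσ y (h hy))

theorem HasLevel.hasFiniteLevel {act : GalQ → M → M} {L : IntermediateField ℚ Kb}
    [FiniteDimensional ℚ L] {x : M} (hx : HasLevel act L x) : HasFiniteLevel act x :=
  ⟨L, inferInstance, hx⟩

/-- Two elements of finite level have a common finite level. -/
theorem HasFiniteLevel.exists_common {M' : Type*} {act : GalQ → M → M} {act' : GalQ → M' → M'}
    {x : M} {y : M'} (hx : HasFiniteLevel act x) (hy : HasFiniteLevel act' y) :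
    ∃ L : IntermediateField ℚ Kb, FiniteDimensional ℚ L ∧ HasLevel act L x ∧ HasLevel act' L y := by
  obtain ⟨L₁, h₁, hx⟩ := hx
  obtain ⟨L₂, h₂, hy⟩ := hy
  exact ⟨L₁ ⊔ L₂, inferInstance, hx.mono le_sup_left, hy.mono le_sup_right⟩

/-- Enlarging the level by a finite extension. -/
theorem HasFiniteLevel.exists_ge {act : GalQ → M → M} {x : M} (hx : HasFiniteLevel act x)
    (L₀ : IntermediateField ℚ Kb) [FiniteDimensional ℚ L₀] :
    ∃ L : IntermediateField ℚ Kb, FiniteDimensional ℚ L ∧ L₀ ≤ L ∧ HasLevel act L x := by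
  obtain ⟨L₁, h₁, hx⟩ := hx
  exact ⟨L₀ ⊔ L₁, inferInstance, le_sup_left, hx.mono le_sup_right⟩

/-- Transport along an equivariant map. -/
theorem HasLevel.map {M' : Type*} {act : GalQ → M → M} {act' : GalQ → M' → M'} (f : M → M')
    (hf : ∀ σ x, f (act σ x) = act' σ (f x)) {L : IntermediateField ℚ Kb} {x : M}
    (hx : HasLevel act L x) : HasLevel act' L (f x) :=
  fun σ hσ => by rw [← hf, hx σ hσ]

theorem HasFiniteLevel.map {M' : Type*} {act : GalQ → M → M} {act' : GalQ → M' → M'} (f : M → M')
    (hf : ∀ σ x, f (act σ x) = act' σ (f x)) {x : M} (hx : HasFiniteLevel act x) :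
    HasFiniteLevel act' (f x) := by
  obtain ⟨L, hL, hx⟩ := hx
  exact ⟨L, hL, hx.map f hf⟩

/-- Reflection along an injective equivariant map. -/
theorem HasLevel.of_injective {M' : Type*} {act : GalQ → M → M} {act' : GalQ → M' → M'}
    (f : M → M') (hinj : Function.Injective f) (hf : ∀ σ x, f (act σ x) = act' σ (f x))
    {L : IntermediateField ℚ Kb} {x : M} (hx : HasLevel act' L (f x)) : HasLevel act L x :=
  fun σ hσ => hinj (by rw [hf, hx σ hσ])

theorem HasFiniteLevel.of_injective {M' : Type*} {act : GalQ → M → M} {act' : GalQ → M' → M'}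
    (f : M → M') (hinj : Function.Injective f) (hf : ∀ σ x, f (act σ x) = act' σ (f x))
    {x : M} (hx : HasFiniteLevel act' (f x)) : HasFiniteLevel act x := by
  obtain ⟨L, hL, hx⟩ := hx
  exact ⟨L, hL, hx.of_injective f hinj hf⟩

end Core

/-! ## Additive structure -/

section Additive

variable {M : Type*} [AddCommGroup M] {act : GalQ → M → M}

theorem HasLevel.zero (h0 : ∀ σ, act σ 0 = 0) (L : IntermediateField ℚ Kb) :
    HasLevel act L (0 : M) := fun σ _ => h0 σ

theorem HasFiniteLevel.zero (h0 : ∀ σ, act σ 0 = 0) : HasFiniteLevel act (0 : M) :=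
  ⟨⊥, inferInstance, HasLevel.zero h0 ⊥⟩

theorem HasLevel.add (hadd : ∀ σ x y, act σ (x + y) = act σ x + act σ y)
    {L : IntermediateField ℚ Kb} {x y : M} (hx : HasLevel act L x) (hy : HasLevel act L y) :
    HasLevel act L (x + y) := fun σ hσ => by rw [hadd, hx σ hσ, hy σ hσ]

theorem HasFiniteLevel.add (hadd : ∀ σ x y, act σ (x + y) = act σ x + act σ y) {x y : M}
    (hx : HasFiniteLevel act x) (hy : HasFiniteLevel act y) : HasFiniteLevel act (x + y) := by
  obtain ⟨L, hL, hx, hy⟩ := hx.exists_common hy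
  exact ⟨L, hL, hx.add hadd hy⟩

theorem HasLevel.neg (hneg : ∀ σ x, act σ (-x) = -act σ x) {L : IntermediateField ℚ Kb} {x : M}
    (hx : HasLevel act L x) : HasLevel act L (-x) := fun σ hσ => by rw [hneg, hx σ hσ]

theorem HasFiniteLevel.neg (hneg : ∀ σ x, act σ (-x) = -act σ x) {x : M}
    (hx : HasFiniteLevel act x) : HasFiniteLevel act (-x) := by
  obtain ⟨L, hL, hx⟩ := hx
  exact ⟨L, hL, hx.neg hneg⟩

theorem HasFiniteLevel.sum (h0 : ∀ σ, act σ 0 = 0)
    (hadd : ∀ σ x y, act σ (x + y) = act σ x + act σ y) {ι : Type*} (s : Finset ι) (f : ι → M)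
    (hf : ∀ i ∈ s, HasFiniteLevel act (f i)) : HasFiniteLevel act (∑ i ∈ s, f i) := by
  classical
  induction s using Finset.induction_on with
  | empty => rw [Finset.sum_empty]; exact HasFiniteLevel.zero h0
  | insert a s ha ih =>
    rw [Finset.sum_insert ha]
    exact (hf a (Finset.mem_insert_self a s)).add hadd
      (ih fun i hi => hf i (Finset.mem_insert_of_mem hi))

end Additive

/-! ## Normal levels -/

section Normal

/-- `ℚ̄/ℚ` is an algebraic closure for the default `ℚ`-algebra structure. -/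
theorem isAlgClosure_Kb : IsAlgClosure ℚ Kb := ⟨inferInstance, AlgebraicClosure.isAlgebraic ℚ⟩

/-- `ℚ̄/ℚ` is normal (for the default `ℚ`-algebra structure). -/
theorem normal_Kb : Normal ℚ Kb := @IsAlgClosure.normal ℚ Kb _ _ _ isAlgClosure_Kb

/-- Every finite subextension of `ℚ̄/ℚ` lies in a finite subextension stable under all
`ℚ`-embeddings. -/
theorem exists_finite_stable_ge (L : IntermediateField ℚ Kb) [FiniteDimensional ℚ L] :
    ∃ L' : IntermediateField ℚ Kb, L ≤ L' ∧ FiniteDimensional ℚ L' ∧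
      ∀ σ : Kb →ₐ[ℚ] Kb, L'.map σ = L' := by
  have : Normal ℚ Kb := normal_Kb
  exact ⟨IntermediateField.normalClosure ℚ L Kb, IntermediateField.le_normalClosure L,
    inferInstance, IntermediateField.normal_iff_forall_map_eq.mp inferInstance⟩

variable {M : Type*}

/-- The level can be taken finite and stable under all embeddings. -/
theorem HasFiniteLevel.exists_normal_level {act : GalQ → M → M} {x : M}
    (hx : HasFiniteLevel act x) :
    ∃ L : IntermediateField ℚ Kb, FiniteDimensional ℚ L ∧ (∀ σ : Kb →ₐ[ℚ] Kb, L.map σ = L) ∧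
      HasLevel act L x := by
  obtain ⟨L, hL, hx⟩ := hx
  obtain ⟨L', hLL', hL', hstab⟩ := exists_finite_stable_ge L
  exact ⟨L', hL', hstab, hx.mono hLL'⟩

/-- A stable field is mapped into itself by every `τ`. -/
theorem apply_mem_of_map_eq {L : IntermediateField ℚ Kb} (hstab : ∀ σ : Kb →ₐ[ℚ] Kb, L.map σ = L)
    (τ : GalQ) {y : Kb} (hy : y ∈ L) : τ y ∈ L := by
  have h : τ y ∈ L.map (τ : Kb →ₐ[ℚ] Kb) := ⟨y, hy, rfl⟩
  rwa [hstab] at h

/-- Conjugation preserves the pointwise stabiliser of a stable field. -/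
theorem conj_fixes_of_map_eq {L : IntermediateField ℚ Kb}
    (hstab : ∀ σ : Kb →ₐ[ℚ] Kb, L.map σ = L) (τ σ : GalQ) (hσ : ∀ y ∈ L, σ y = y) :
    ∀ y ∈ L, (τ⁻¹ * σ * τ) y = y := by
  intro y hy
  have h1 : σ (τ y) = τ y := hσ _ (apply_mem_of_map_eq hstab τ hy)
  show τ⁻¹ (σ (τ y)) = y
  rw [h1]
  exact τ.symm_apply_apply y

end Normal

/-! ## Group actions: the orbit of an element of finite level -/

section Orbit

variable {M : Type*} {act : GalQ → M → M}

/-- For a group action and a stable level, the whole orbit has the same level. -/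
theorem HasLevel.act_of_map_eq (hmul : ∀ σ τ x, act (σ * τ) x = act σ (act τ x))
    {L : IntermediateField ℚ Kb} (hstab : ∀ σ : Kb →ₐ[ℚ] Kb, L.map σ = L) {x : M}
    (hx : HasLevel act L x) (τ : GalQ) : HasLevel act L (act τ x) := by
  intro σ hσ
  have h1 : act (τ⁻¹ * σ * τ) x = x := hx _ (conj_fixes_of_map_eq hstab τ σ hσ)
  have h2 : σ * τ = τ * (τ⁻¹ * σ * τ) := by group
  rw [← hmul, h2, hmul, h1]

/-- Elements with the same restriction to `L` act in the same way on an element of level `L`. -/
theorem HasLevel.act_eq_of_restrict_eq (hmul : ∀ σ τ x, act (σ * τ) x = act σ (act τ x))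
    {L : IntermediateField ℚ Kb} {x : M} (hx : HasLevel act L x) {τ τ' : GalQ}
    (h : ∀ y ∈ L, τ y = τ' y) : act τ x = act τ' x := by
  have h1 : act (τ'⁻¹ * τ) x = x := hx _ (fun y hy => by
    show τ'⁻¹ (τ y) = y
    rw [h y hy]
    exact τ'.symm_apply_apply y)
  have h2 : τ = τ' * (τ'⁻¹ * τ) := by group
  rw [h2, hmul, h1]

/-- The orbit of an element of finite level is finite. -/
theorem HasFiniteLevel.finite_orbit (hmul : ∀ σ τ x, act (σ * τ) x = act σ (act τ x)) {x : M}
    (hx : HasFiniteLevel act x) : (Set.range fun τ : GalQ => act τ x).Finite := by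
  obtain ⟨L, hL, hx⟩ := hx
  let r : GalQ → (L →ₐ[ℚ] Kb) := fun τ => (τ : Kb →ₐ[ℚ] Kb).comp L.val
  have hfac : Function.FactorsThrough (fun τ : GalQ => act τ x) r := by
    intro τ τ' h
    refine hx.act_eq_of_restrict_eq hmul (fun y hy => ?_)
    exact DFunLike.congr_fun h ⟨y, hy⟩
  have hsub : (Set.range fun τ : GalQ => act τ x) ⊆
      Set.range (Function.extend r (fun τ : GalQ => act τ x) (fun _ => x)) := by
    rintro _ ⟨τ, rfl⟩
    exact ⟨r τ, hfac.extend_apply _ τ⟩
  exact (Set.finite_range _).subset hsub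

end Orbit

/-! ## Representations -/

section Rep

variable {k : Type*} [CommRing k] {V : Type*} [AddCommGroup V] [Module k V]

/-- The action function of a representation. -/
def repAct (ρ : GalQ →* Module.End k V) : GalQ → V → V := fun σ v => ρ σ v

@[simp] theorem repAct_apply (ρ : GalQ →* Module.End k V) (σ : GalQ) (v : V) :
    repAct ρ σ v = ρ σ v := rfl

theorem repAct_mul (ρ : GalQ →* Module.End k V) (σ τ : GalQ) (v : V) :
    repAct ρ (σ * τ) v = repAct ρ σ (repAct ρ τ v) := by
  simp only [repAct_apply, map_mul, Module.End.mul_apply]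

theorem repAct_zero (ρ : GalQ →* Module.End k V) (σ : GalQ) : repAct ρ σ 0 = 0 := map_zero _

theorem repAct_add (ρ : GalQ →* Module.End k V) (σ : GalQ) (v w : V) :
    repAct ρ σ (v + w) = repAct ρ σ v + repAct ρ σ w := map_add _ _ _

theorem repAct_neg (ρ : GalQ →* Module.End k V) (σ : GalQ) (v : V) :
    repAct ρ σ (-v) = -repAct ρ σ v := map_neg _ _

theorem HasLevel.smul {ρ : GalQ →* Module.End k V} {L : IntermediateField ℚ Kb} {v : V}
    (hv : HasLevel (repAct ρ) L v) (c : k) : HasLevel (repAct ρ) L (c • v) := fun σ hσ => by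
  have h := hv σ hσ
  rw [repAct_apply] at h ⊢
  rw [map_smul, h]

theorem HasFiniteLevel.smul {ρ : GalQ →* Module.End k V} {v : V}
    (hv : HasFiniteLevel (repAct ρ) v) (c : k) : HasFiniteLevel (repAct ρ) (c • v) := by
  obtain ⟨L, hL, hv⟩ := hv
  exact ⟨L, hL, hv.smul c⟩

/-- The `k`-span of the orbit of `v`. -/
def orbitSpan (ρ : GalQ →* Module.End k V) (v : V) : Submodule k V :=
  Submodule.span k (Set.range fun σ : GalQ => ρ σ v)

theorem apply_mem_orbitSpan (ρ : GalQ →* Module.End k V) (v : V) (σ : GalQ) :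
    ρ σ v ∈ orbitSpan ρ v := Submodule.subset_span ⟨σ, rfl⟩

theorem self_mem_orbitSpan (ρ : GalQ →* Module.End k V) (v : V) : v ∈ orbitSpan ρ v := by
  have h := apply_mem_orbitSpan ρ v 1
  rwa [map_one, Module.End.one_apply] at h

/-- The orbit span is stable under the representation. -/
theorem orbitSpan_stable (ρ : GalQ →* Module.End k V) (v : V) (τ : GalQ) {w : V}
    (hw : w ∈ orbitSpan ρ v) : ρ τ w ∈ orbitSpan ρ v := by
  induction hw using Submodule.span_induction with
  | mem x hx =>
    obtain ⟨σ, rfl⟩ := hx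
    have h : ρ τ (ρ σ v) = ρ (τ * σ) v := by rw [map_mul, Module.End.mul_apply]
    rw [h]
    exact apply_mem_orbitSpan ρ v _
  | zero => rw [map_zero]; exact Submodule.zero_mem _
  | add x y _ _ hx hy => rw [map_add]; exact Submodule.add_mem _ hx hy
  | smul c x _ hx => rw [map_smul]; exact Submodule.smul_mem _ c hx

/-- The orbit span is the smallest stable submodule containing `v`. -/
theorem orbitSpan_le (ρ : GalQ →* Module.End k V) {v : V} {U : Submodule k V}
    (hU : ∀ σ : GalQ, ∀ w ∈ U, ρ σ w ∈ U) (hv : v ∈ U) : orbitSpan ρ v ≤ U := by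
  refine Submodule.span_le.mpr ?_
  rintro _ ⟨σ, rfl⟩
  exact hU σ v hv

/-- The orbit span of a vector of finite level is finitely generated (finite-dimensional). -/
theorem finite_orbitSpan {ρ : GalQ →* Module.End k V} {v : V}
    (hv : HasFiniteLevel (repAct ρ) v) : Module.Finite k (orbitSpan ρ v) :=
  Module.Finite.span_of_finite k (hv.finite_orbit (repAct_mul ρ))

/-- Every vector of the orbit span has the (stable) level of `v`. -/
theorem hasLevel_of_mem_orbitSpan {ρ : GalQ →* Module.End k V} {v : V}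
    {L : IntermediateField ℚ Kb} (hstab : ∀ σ : Kb →ₐ[ℚ] Kb, L.map σ = L)
    (hv : HasLevel (repAct ρ) L v) {w : V} (hw : w ∈ orbitSpan ρ v) :
    HasLevel (repAct ρ) L w := by
  induction hw using Submodule.span_induction with
  | mem x hx =>
    obtain ⟨τ, rfl⟩ := hx
    exact hv.act_of_map_eq (repAct_mul ρ) hstab τ
  | zero => exact HasLevel.zero (repAct_zero ρ) L
  | add x y _ _ hx hy => exact hx.add (repAct_add ρ) hy
  | smul c x _ hx => exact hx.smul c

/-- **Finite normal level of the orbit span.** For `v` of finite level and any prescribed finite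
`L₀` there is a finite `L ⊇ L₀`, stable under all embeddings, such that every `σ` fixing `L`
pointwise acts trivially on the orbit span of `v`. -/
theorem exists_normal_level_orbitSpan {ρ : GalQ →* Module.End k V} {v : V}
    (hv : HasFiniteLevel (repAct ρ) v) (L₀ : IntermediateField ℚ Kb) [FiniteDimensional ℚ L₀] :
    ∃ L : IntermediateField ℚ Kb, FiniteDimensional ℚ L ∧ L₀ ≤ L ∧
      (∀ σ : Kb →ₐ[ℚ] Kb, L.map σ = L) ∧
      ∀ σ : GalQ, (∀ y ∈ L, σ y = y) → ∀ w ∈ orbitSpan ρ v, ρ σ w = w := by
  obtain ⟨L₁, hL₁, hL₀₁, hv₁⟩ := hv.exists_ge L₀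
  obtain ⟨L, hL₁L, hL, hstab⟩ := exists_finite_stable_ge L₁
  exact ⟨L, hL, hL₀₁.trans hL₁L, hstab, fun σ hσ w hw =>
    hasLevel_of_mem_orbitSpan hstab (hv₁.mono hL₁L) hw σ hσ⟩

/-- An operator commuting with the representation which has `v` as an eigenvector acts by the
same scalar on the whole orbit span. -/
theorem eigen_on_orbitSpan {ρ : GalQ →* Module.End k V} {v : V} (T : V →ₗ[k] V)
    (hT : ∀ (σ : GalQ) (w : V), T (ρ σ w) = ρ σ (T w)) {a : k} (hv : T v = a • v) {w : V}
    (hw : w ∈ orbitSpan ρ v) : T w = a • w := by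
  induction hw using Submodule.span_induction with
  | mem x hx =>
    obtain ⟨σ, rfl⟩ := hx
    rw [hT, hv, map_smul]
  | zero => rw [map_zero, smul_zero]
  | add x y _ _ hx hy => rw [map_add, hx, hy, smul_add]
  | smul c x _ hx => rw [map_smul, hx, smul_comm]

/-- The restriction of a representation to a stable submodule. -/
def subRep (ρ : GalQ →* Module.End k V) (U : Submodule k V)
    (hU : ∀ σ : GalQ, ∀ w ∈ U, ρ σ w ∈ U) : GalQ →* Module.End k U where
  toFun σ := (ρ σ).restrict (hU σ)
  map_one' := by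
    ext w
    simp only [LinearMap.coe_restrict_apply, map_one, Module.End.one_apply]
  map_mul' σ τ := by
    ext w
    simp only [LinearMap.coe_restrict_apply, map_mul, Module.End.mul_apply]

@[simp] theorem coe_subRep_apply (ρ : GalQ →* Module.End k V) (U : Submodule k V)
    (hU : ∀ σ : GalQ, ∀ w ∈ U, ρ σ w ∈ U) (σ : GalQ) (w : U) :
    ((subRep ρ U hU σ w : U) : V) = ρ σ (w : V) := rfl

/-- The representation on the orbit span. -/
def orbitRep (ρ : GalQ →* Module.End k V) (v : V) : GalQ →* Module.End k (orbitSpan ρ v) :=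
  subRep ρ (orbitSpan ρ v) (fun σ _ hw => orbitSpan_stable ρ v σ hw)

@[simp] theorem coe_orbitRep_apply (ρ : GalQ →* Module.End k V) (v : V) (σ : GalQ)
    (w : orbitSpan ρ v) : ((orbitRep ρ v σ w : orbitSpan ρ v) : V) = ρ σ (w : V) := rfl

/-- **The representation on the orbit span factors through a finite level** (this is the Prelude
predicate `GaloisFactorsThroughFiniteLevel (orbitRep ρ v)`, unfolded), with a finite normal level
containing a prescribed finite `L₀`. -/
theorem orbitRep_factors {ρ : GalQ →* Module.End k V} {v : V}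
    (hv : HasFiniteLevel (repAct ρ) v) (L₀ : IntermediateField ℚ Kb) [FiniteDimensional ℚ L₀] :
    ∃ L : IntermediateField ℚ Kb, FiniteDimensional ℚ L ∧ L₀ ≤ L ∧
      (∀ σ : Kb →ₐ[ℚ] Kb, L.map σ = L) ∧
      ∀ σ : GalQ, (∀ x ∈ L, σ x = x) → orbitRep ρ v σ = 1 := by
  obtain ⟨L, hL, hL₀, hstab, h⟩ := exists_normal_level_orbitSpan hv L₀
  refine ⟨L, hL, hL₀, hstab, fun σ hσ => ?_⟩
  ext w
  rw [coe_orbitRep_apply, Module.End.one_apply]
  exact h σ hσ w w.2

end Rep

/-! ## Base change `k ⊗[R] M` -/

section Tensor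

variable {R : Type*} [CommRing R] (k : Type*) [CommRing k] [Algebra R k]
variable {M : Type*} [AddCommGroup M] [Module R M]

/-- The base change of a representation. -/
def baseChangeRep (ρ : GalQ →* Module.End R M) : GalQ →* Module.End k (k ⊗[R] M) where
  toFun σ := (ρ σ).baseChange k
  map_one' := by rw [map_one, LinearMap.baseChange_one]
  map_mul' σ τ := by rw [map_mul, LinearMap.baseChange_mul]

@[simp] theorem baseChangeRep_apply (ρ : GalQ →* Module.End R M) (σ : GalQ) :
    baseChangeRep k ρ σ = (ρ σ).baseChange k := rfl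

theorem baseChangeRep_tmul (ρ : GalQ →* Module.End R M) (σ : GalQ) (c : k) (x : M) :
    baseChangeRep k ρ σ (c ⊗ₜ[R] x) = c ⊗ₜ[R] ρ σ x := by
  rw [baseChangeRep_apply, LinearMap.baseChange_tmul]

/-- **Finite level passes to the base change**: if every element of `M` has finite level, so has
every element of `k ⊗[R] M`. -/
theorem hasFiniteLevel_baseChangeRep (ρ : GalQ →* Module.End R M)
    (hM : ∀ x : M, HasFiniteLevel (repAct ρ) x) (v : k ⊗[R] M) :
    HasFiniteLevel (repAct (baseChangeRep k ρ)) v := by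
  induction v using TensorProduct.induction_on with
  | zero => exact HasFiniteLevel.zero (repAct_zero _)
  | tmul c x =>
    obtain ⟨L, hL, hx⟩ := hM x
    refine ⟨L, hL, fun σ hσ => ?_⟩
    have h := hx σ hσ
    rw [repAct_apply] at h ⊢
    rw [baseChangeRep_tmul, h]
  | add v w hv hw => exact hv.add (repAct_add _) hw

end Tensor

end Fermat.Agent.S29.FiniteLevel

end
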