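import Mathlib
import Fermat.Agent.S29.FiniteLevel.Abstract
import Fermat.Agent.S37.Descent.Rational

/-!
# S29 (R-core, C3): every class of `J₀(N)(ℚ̄)` has finite level

* `smul_up_eq_of_fixes` : `σ` fixing `L2` pointwise fixes the image of `F_{L2}` in `F_{ℚ̄}`.
* `smul_place_eq_of_determinedOver` : `σ` fixing `L2` pointwise fixes every place determined
  over `L2`.
* `hasFiniteLevel_pic0` / `hasFiniteLevel_JZero` : every divisor class is fixed by
  `Gal(ℚ̄/L)` for some number field `L` (no finiteness of torsion is used).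
* `hasFiniteLevel_torsion`, `hasFiniteLevel_torsion_baseChange` : the same for the Prelude
  representation `JZero.torsionGaloisRep N n` on `J₀(N)[n]` and for its base change
  `k ⊗[ZMod n] J₀(N)[n]`.
-/

set_option autoImplicit false

noncomputable section

open HahnSeries AlgebraicCurve ModularCurve IntermediateField
open scoped TensorProduct

namespace Fermat.Agent.S29.FiniteLevel

open Fermat.Agent.S18.ConstExt Fermat.Agent.S37.Descent.Rational

local notation "Kb" => AlgebraicClosure ℚ
local notation "GalQ" => (AlgebraicClosure ℚ ≃ₐ[ℚ] AlgebraicClosure ℚ)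

section Generic

variable (F₀ : IntermediateField ℚ (LaurentSeries ℚ))

/-- `σ` fixing `L2` pointwise fixes the image of `F_{L2}` in `F_{ℚ̄}`. -/
theorem smul_up_eq_of_fixes (σ : GalQ) {L2 : IntermediateField ℚ Kb} (hσ : ∀ y ∈ L2, σ y = y)
    (x : laurentBaseChange L2 F₀) :
    arithmeticGalois F₀ σ • up (K := Kb) F₀ x = up (K := Kb) F₀ x := by
  refine Subtype.ext ?_
  show coeffMap (σ : Kb →+* Kb) (coeffMap (algebraMap L2 Kb) (x : LaurentSeries L2)) =
    coeffMap (algebraMap L2 Kb) (x : LaurentSeries L2)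
  rw [coeffMap_coeffMap]
  have h : ((σ : Kb →+* Kb).comp (algebraMap L2 Kb)) = algebraMap L2 Kb :=
    RingHom.ext fun c : L2 => hσ (c : Kb) c.2
  exact coeffMap_congr h _

/-- `σ` fixing `L2` pointwise fixes every place determined over `L2`. -/
theorem smul_place_eq_of_determinedOver (σ : GalQ) {L2 : IntermediateField ℚ Kb}
    (hσ : ∀ y ∈ L2, σ y = y) {P : Place Kb (laurentBaseChange Kb F₀)}
    (hP : DeterminedOver F₀ L2 P) : arithmeticGalois F₀ σ • P = P := by
  apply hP
  intro x
  have h := SemilinearAut.ord_smul (arithmeticGalois F₀ σ) P (up (K := Kb) F₀ x)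
  rwa [smul_up_eq_of_fixes F₀ σ hσ x] at h

/-- A divisor whose support consists of fixed places is fixed. -/
theorem smul_divisor_eq_of_support (g : SemilinearAut Kb (laurentBaseChange Kb F₀))
    (D : Divisor Kb (laurentBaseChange Kb F₀)) (h : ∀ P ∈ D.support, g • P = P) : g • D = D := by
  rw [SemilinearAut.divisor_smul_def]
  conv_rhs => rw [← Finsupp.mapDomain_id (v := D)]
  exact Finsupp.mapDomain_congr h

end Generic

/-! ## The modular Jacobian -/

section Modular

variable (N : ℕ) [NeZero N]

/-- The Galois action on `J₀(N)(ℚ̄)` as a function. -/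
def jAct : GalQ → JZero N → JZero N := fun σ x => σ • x

omit [NeZero N] in
@[simp] theorem jAct_apply (σ : GalQ) (x : JZero N) : jAct N σ x = σ • x := rfl

/-- **Every class of `J₀(N)(ℚ̄)` is fixed by `Gal(ℚ̄/L)` for some number field `L`.** -/
theorem hasFiniteLevel_JZero (x : JZero N) : HasFiniteLevel (jAct N) x := by
  obtain ⟨D, rfl⟩ := Pic0.mk_surjective x
  obtain ⟨L1, hL1, -, -, h⟩ := exists_galois_field_of_definition N
    (D : Divisor Kb (modularFunctionFieldBar N)).support ∅ ∅
  refine ⟨L1, hL1, fun σ hσ => ?_⟩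
  have hD : arithmeticGalois (modularFunctionFieldFull N) σ •
      (D : Divisor Kb (modularFunctionFieldBar N)) = D :=
    smul_divisor_eq_of_support _ _ _ (fun P hP =>
      smul_place_eq_of_determinedOver _ σ hσ ((h L1 le_rfl).1 P hP))
  show σ • (Pic0.mk D : JZero N) = Pic0.mk D
  rw [galois_smul_pic0_def, SemilinearAut.pic0_smul_mk]
  exact congrArg Pic0.mk (Subtype.ext hD)

/-- Every element of `J₀(N)[n]` has finite level for the Prelude representation
`JZero.torsionGaloisRep N n`. -/
theorem hasFiniteLevel_torsion (n : ℕ)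
    (x : Pic0.torsion Kb (modularFunctionFieldBar N) n) :
    HasFiniteLevel (repAct (JZero.torsionGaloisRep N n)) x :=
  HasFiniteLevel.of_injective (M' := JZero N) (act' := jAct N)
    (fun y : Pic0.torsion Kb (modularFunctionFieldBar N) n => (y : JZero N))
    Subtype.val_injective (fun σ y => JZero.coe_torsionGaloisRep_apply N σ y)
    (hasFiniteLevel_JZero N x)

/-- Every element of `k ⊗[ZMod n] J₀(N)[n]` has finite level. -/
theorem hasFiniteLevel_torsion_baseChange (n : ℕ) (k : Type*) [CommRing k] [Algebra (ZMod n) k]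
    (v : k ⊗[ZMod n] Pic0.torsion Kb (modularFunctionFieldBar N) n) :
    HasFiniteLevel (repAct (baseChangeRep k (JZero.torsionGaloisRep N n))) v :=
  hasFiniteLevel_baseChangeRep k _ (hasFiniteLevel_torsion N n) v

/-- **(C3), packaged.** For `v ∈ k ⊗[ZMod n] J₀(N)[n]` the `k`-span of the Galois orbit of `v`
contains `v`, is stable, finitely generated, and the Galois action on it is trivial on
`Gal(ℚ̄/L)` for a finite normal `L` containing any prescribed finite `L₀`. -/
theorem orbit_package (n : ℕ) (k : Type*) [CommRing k] [Algebra (ZMod n) k]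
    (v : k ⊗[ZMod n] Pic0.torsion Kb (modularFunctionFieldBar N) n)
    (L₀ : IntermediateField ℚ Kb) [FiniteDimensional ℚ L₀] :
    v ∈ orbitSpan (baseChangeRep k (JZero.torsionGaloisRep N n)) v ∧
    (∀ (σ : GalQ), ∀ w ∈ orbitSpan (baseChangeRep k (JZero.torsionGaloisRep N n)) v,
      baseChangeRep k (JZero.torsionGaloisRep N n) σ w ∈
        orbitSpan (baseChangeRep k (JZero.torsionGaloisRep N n)) v) ∧
    Module.Finite k (orbitSpan (baseChangeRep k (JZero.torsionGaloisRep N n)) v) ∧
    ∃ L : IntermediateField ℚ Kb, FiniteDimensional ℚ L ∧ L₀ ≤ L ∧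
      (∀ σ : Kb →ₐ[ℚ] Kb, L.map σ = L) ∧
      ∀ σ : GalQ, (∀ x ∈ L, σ x = x) →
        orbitRep (baseChangeRep k (JZero.torsionGaloisRep N n)) v σ = 1 :=
  ⟨self_mem_orbitSpan _ v, fun σ _ hw => orbitSpan_stable _ v σ hw,
    finite_orbitSpan (hasFiniteLevel_torsion_baseChange N n k v),
    orbitRep_factors (hasFiniteLevel_torsion_baseChange N n k v) L₀⟩

end Modular

end Fermat.Agent.S29.FiniteLevel

end
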